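import Mathlib

/-!
# ES-D-A4 (Riemann-Hurwitz for the Riemann genus): interfaces of the algebraic blocks

Both statements are Mathlib-only.

* `LatticeCountStatement` (LC): dimension of `B ∩ X^m B'` for a `K[X]`-lattice `B` and a
  `K[1/X]`-lattice `B'` in a finite-dimensional `K(X)`-vector space.
* `LocalDiscrStatement` (LD): the `t`-adic valuation of the discriminant of an integral basis is
  `≥ ∑ (e_P - 1)`, with equality in the tame case.
-/

set_option autoImplicit false

open Polynomial IsDedekindDomain

namespace Fermat.Agent.H56.RH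

noncomputable section

/-! ### (LC) lattice count -/

section LC

variable {K V : Type} [Field K] [AddCommGroup V] [Module (RatFunc K) V] [Module K V]
  [IsScalarTower K (RatFunc K) V] {n : ℕ}

/-- `K[X]` as a `K`-subalgebra of `K(X)`. -/
def polySub (K : Type) [Field K] : Subalgebra K (RatFunc K) :=
  (IsScalarTower.toAlgHom K K[X] (RatFunc K)).range

/-- `K[1/X]` as a `K`-subalgebra of `K(X)`. -/
def invPolySub (K : Type) [Field K] : Subalgebra K (RatFunc K) :=
  (Polynomial.aeval ((RatFunc.X : RatFunc K)⁻¹)).range

/-- The `K`-space `B ∩ X^m B'`, where `B` is the `K[X]`-span of the basis `u` and `B'` the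
`K[1/X]`-span of the basis `u'`. -/
def latticeSpace (u u' : Module.Basis (Fin n) (RatFunc K) V) (m : ℤ) : Submodule K V where
  carrier := {f | (∀ i, u.repr f i ∈ polySub K) ∧
    (∀ j, (RatFunc.X : RatFunc K) ^ (-m) * u'.repr f j ∈ invPolySub K)}
  zero_mem' := by
    refine ⟨fun i => ?_, fun j => ?_⟩
    · simp only [map_zero, Finsupp.coe_zero, Pi.zero_apply]
      exact (polySub K).zero_mem
    · simp only [map_zero, Finsupp.coe_zero, Pi.zero_apply, mul_zero]
      exact (invPolySub K).zero_mem
  add_mem' := by
    rintro f g ⟨hf, hf'⟩ ⟨hg, hg'⟩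
    refine ⟨fun i => ?_, fun j => ?_⟩
    · simp only [map_add, Finsupp.coe_add, Pi.add_apply]
      exact (polySub K).add_mem (hf i) (hg i)
    · simp only [map_add, Finsupp.coe_add, Pi.add_apply, mul_add]
      exact (invPolySub K).add_mem (hf' j) (hg' j)
  smul_mem' := by
    rintro c f ⟨hf, hf'⟩
    have hc : ∀ x : V, c • x = (algebraMap K (RatFunc K) c) • x := fun x => by
      rw [algebraMap_smul]
    refine ⟨fun i => ?_, fun j => ?_⟩
    · rw [hc, map_smul, Finsupp.smul_apply, smul_eq_mul, ← Algebra.smul_def]
      exact (polySub K).smul_mem (hf i) c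
    · rw [hc, map_smul, Finsupp.smul_apply, smul_eq_mul, mul_left_comm, ← Algebra.smul_def]
      exact (invPolySub K).smul_mem (hf' j) c

/-- **(LC) lattice count.**  If the two bases are Laurent-compatible, then for all large `m`
the space `B ∩ X^m B'` is finite dimensional over `K`, of dimension
`n (m + 1) + deg det (u.toMatrix u')`. -/
def LatticeCountStatement : Prop :=
  ∀ (K V : Type) [Field K] [AddCommGroup V] [Module (RatFunc K) V] [Module K V]
    [IsScalarTower K (RatFunc K) V] (n : ℕ) (u u' : Module.Basis (Fin n) (RatFunc K) V),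
    (∀ j, ∃ k : ℕ, ∀ i, (RatFunc.X : RatFunc K) ^ k * u.repr (u' j) i ∈ polySub K) →
    (∀ i, ∃ k : ℕ, ∀ j, ((RatFunc.X : RatFunc K)⁻¹) ^ k * u'.repr (u i) j ∈ invPolySub K) →
    ∃ m₀ : ℤ, ∀ m : ℤ, m₀ ≤ m →
      Module.Finite K (latticeSpace u u' m) ∧
      (Module.finrank K (latticeSpace u u' m) : ℤ) =
        n * (m + 1) + (u.toMatrix u').det.intDegree

end LC

/-! ### (LD) local discriminant -/

/-- The exponent of the height one prime `P` of `B` at the element `t` of `A`:
the `P`-adic valuation of (the image of) `t`. -/
def expAt {A B : Type} [CommRing A] [CommRing B] [IsDedekindDomain B] [Algebra A B]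
    (t : A) (P : HeightOneSpectrum B) : ℕ :=
  (-(WithZero.log (P.intValuation (algebraMap A B t)))).toNat

/-- **(LD) local discriminant.**  `A` a PID which is a `K`-algebra, `t` a prime element with
`A/t = K` algebraically closed, `F / Frac A` finite separable of degree `n`, `B` the integral
closure of `A` in `F`, `u` an `A`-basis of `B`.  Then only finitely many primes of `B` contain
`t`, `∑ e_P = n`, `∑ (e_P - 1) ≤ v_t (disc u)`, with equality if all `e_P` are nonzero in `K`. -/
def LocalDiscrStatement : Prop :=
  ∀ (K A E F B : Type) [Field K] [IsAlgClosed K] [CommRing A] [IsDomain A]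
    [IsPrincipalIdealRing A] [Algebra K A] [Field E] [Algebra A E] [IsFractionRing A E]
    [Field F] [Algebra E F] [Algebra A F] [IsScalarTower A E F] [FiniteDimensional E F]
    [Algebra.IsSeparable E F] [CommRing B] [IsDomain B] [IsDedekindDomain B] [Algebra A B]
    [Algebra B F] [IsScalarTower A B F] [IsIntegralClosure B A F]
    (t : A), Prime t →
    Function.Bijective (fun c : K => Ideal.Quotient.mk (Ideal.span {t}) (algebraMap K A c)) →
    ∀ (n : ℕ) (u : Module.Basis (Fin n) A B),
      {P : HeightOneSpectrum B | 0 < expAt t P}.Finite ∧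
      (∑ᶠ P : HeightOneSpectrum B, expAt t P) = n ∧
      (∑ᶠ P : HeightOneSpectrum B, (expAt t P - 1)) ≤ multiplicity t (Algebra.discr A u) ∧
      ((∀ P : HeightOneSpectrum B, 0 < expAt t P → ((expAt t P : ℕ) : K) ≠ 0) →
        (∑ᶠ P : HeightOneSpectrum B, (expAt t P - 1)) = multiplicity t (Algebra.discr A u))

/-- **(CD) corank and divisibility of the determinant** (used by (LD)).  If the reduction of a
square matrix modulo a prime element `t` (with `A/t = K` a field) has rank `≤ n - c`, then
`t ^ c` divides its determinant. -/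
def CorankDetStatement : Prop :=
  ∀ (K A : Type) [Field K] [CommRing A] [IsDomain A] (φ : A →+* K) (t : A),
    Function.Surjective φ → (∀ a : A, φ a = 0 ↔ t ∣ a) →
    ∀ (n c : ℕ) (G : Matrix (Fin n) (Fin n) A),
      (G.map φ).rank + c ≤ n → t ^ c ∣ G.det

/-- **(TR) rank of the trace form of a finite-dimensional algebra** (used by (LD)).  `C` a
finite-dimensional commutative algebra over an algebraically closed field `K`, given as a finite
product of local algebras `C j`.  Then the rank of the trace form of `∏ C j` is the number of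
factors whose dimension is nonzero in `K`; in particular it is `≤` the number of factors. -/
def TraceRankStatement : Prop :=
  ∀ (K : Type) [Field K] [IsAlgClosed K] (s : ℕ) (C : Fin s → Type)
    [∀ j, CommRing (C j)] [∀ j, Algebra K (C j)] [∀ j, IsLocalRing (C j)]
    [∀ j, Module.Finite K (C j)] (n : ℕ) (b : Module.Basis (Fin n) K (∀ j, C j)),
    (Algebra.traceMatrix K b).rank =
      Nat.card {j : Fin s // ((Module.finrank K (C j) : ℕ) : K) ≠ 0}

end

end Fermat.Agent.H56.RH
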