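import Mathlib
import Fermat.Prelude.Def_AlgebraicCurve_Repartitions

/-!
# ES-D-A4 (Riemann-Hurwitz for the Riemann genus): interfaces of the glue blocks FRAME and DICT
-/

set_option autoImplicit false

open Polynomial IsDedekindDomain AlgebraicCurve IntermediateField

namespace Fermat.Agent.H56.RH

noncomputable section

variable {K F : Type} [Field K] [Field F] [Algebra K F]

/-- The `K[X]`-algebra structure `X ↦ y` on `F`. -/
abbrev polyAlgebra (y : F) : Algebra K[X] F := (Polynomial.aeval y).toRingHom.toAlgebra

theorem polyAlgebra_algebraMap (y : F) (p : K[X]) :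
    letI := polyAlgebra (K := K) y
    algebraMap K[X] F p = Polynomial.aeval y p := rfl

theorem polyAlgebra_injective {y : F} (hy : Transcendental K y) :
    letI := polyAlgebra (K := K) y
    Function.Injective (algebraMap K[X] F) :=
  transcendental_iff_injective.mp hy

/-- The ring homomorphism `K(X) → F`, `X ↦ y`, for transcendental `y`. -/
def ratFuncHom (y : F) (hy : Transcendental K y) : RatFunc K →+* F :=
  letI := polyAlgebra (K := K) y
  (IsFractionRing.lift (K := RatFunc K) (polyAlgebra_injective hy) : RatFunc K →+* F)

/-- The `K(X)`-algebra structure `X ↦ y` on `F`, for transcendental `y`. -/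
abbrev ratFuncAlgebra (y : F) (hy : Transcendental K y) : Algebra (RatFunc K) F :=
  (ratFuncHom y hy).toAlgebra

theorem ratFuncHom_algebraMap (y : F) (hy : Transcendental K y) (p : K[X]) :
    ratFuncHom y hy (algebraMap K[X] (RatFunc K) p) = Polynomial.aeval y p := by
  letI := polyAlgebra (K := K) y
  exact IsFractionRing.lift_algebraMap (polyAlgebra_injective hy) p

theorem ratFuncHom_X (y : F) (hy : Transcendental K y) :
    ratFuncHom y hy (RatFunc.X : RatFunc K) = y := by
  have := ratFuncHom_algebraMap y hy (Polynomial.X : K[X])
  simpa using this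

theorem ratFuncHom_C (y : F) (hy : Transcendental K y) (c : K) :
    ratFuncHom y hy (algebraMap K (RatFunc K) c) = algebraMap K F c := by
  have := ratFuncHom_algebraMap y hy (Polynomial.C c : K[X])
  rw [Polynomial.aeval_C] at this
  rw [← this]
  congr 1

theorem isScalarTower_poly_ratFunc (y : F) (hy : Transcendental K y) :
    letI := polyAlgebra (K := K) y
    letI := ratFuncAlgebra y hy
    IsScalarTower K[X] (RatFunc K) F := by
  letI := polyAlgebra (K := K) y
  letI := ratFuncAlgebra y hy
  exact IsScalarTower.of_algebraMap_eq fun p => (ratFuncHom_algebraMap y hy p).symm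

theorem isScalarTower_const_poly (y : F) :
    letI := polyAlgebra (K := K) y
    IsScalarTower K K[X] F := by
  letI := polyAlgebra (K := K) y
  exact IsScalarTower.of_algebraMap_eq fun c => by
    rw [polyAlgebra_algebraMap, ← Polynomial.C_eq_algebraMap, Polynomial.aeval_C]

theorem isScalarTower_const_ratFunc (y : F) (hy : Transcendental K y) :
    letI := ratFuncAlgebra y hy
    IsScalarTower K (RatFunc K) F := by
  letI := ratFuncAlgebra y hy
  exact IsScalarTower.of_algebraMap_eq fun c => (ratFuncHom_C y hy c).symm

/-- **FRAME.**  For `y` transcendental with `F / K(y)` finite separable, the `K(X)`-algebra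
structure `X ↦ y` makes `F` finite separable over `K(X)`, of the same degree. -/
def FrameStatement : Prop :=
  ∀ (K F : Type) [Field K] [Field F] [Algebra K F] (y : F) (hy : Transcendental K y),
    FiniteDimensional K⟮y⟯ F → Algebra.IsSeparable K⟮y⟯ F →
    letI := ratFuncAlgebra y hy
    FiniteDimensional (RatFunc K) F ∧ Algebra.IsSeparable (RatFunc K) F ∧
      Module.finrank (RatFunc K) F = Module.finrank K⟮y⟯ F

/-- **DICT.**  `K` algebraically closed, `y ∈ F` transcendental with `F / K(y)` algebraic,
`A → F` a ring with image `K[y]`, `B` a Dedekind domain with fraction field `F` which is the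
integral closure of `A` in `F`.  Then the places `v` of `F / K` with `0 ≤ ord_v y` are exactly
the places attached to the height one primes of `B`, and `B` is the set of functions which are
regular at all these places. -/
def DictStatement : Prop :=
  ∀ (K F A B : Type) [Field K] [IsAlgClosed K] [Field F] [Algebra K F]
    [CommRing A] [Algebra A F]
    [CommRing B] [IsDomain B] [IsDedekindDomain B] [Algebra K B] [Algebra B F]
    [IsScalarTower K B F] [IsFractionRing B F] [Algebra A B] [IsScalarTower A B F]
    [IsIntegralClosure B A F] (y : F),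
    Transcendental K y → Algebra.IsAlgebraic K⟮y⟯ F →
    Set.range (algebraMap A F) = (Algebra.adjoin K {y} : Set F) →
    (∀ v : Place K F, 0 ≤ v.ord y →
      ∃ w : HeightOneSpectrum B, Place.ofHeightOneSpectrum (K := K) (F := F) w = v) ∧
    (∀ w : HeightOneSpectrum B, 0 ≤ (Place.ofHeightOneSpectrum (K := K) (F := F) w).ord y) ∧
    (∀ f : F, f ∈ Set.range (algebraMap B F) ↔ ∀ v : Place K F, 0 ≤ v.ord y → 0 ≤ v.ord f)

end

end Fermat.Agent.H56.RH
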