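import Fermat.Agent.H56.RH.Global

/-!
# ES-D-A4: interface of the fibre-sum block (finsum over places in terms of primes)
-/

set_option autoImplicit false

open Polynomial Module AlgebraicCurve IsDedekindDomain

namespace Fermat.Agent.H56.RH

noncomputable section

open Fermat.Agent.H27.ESD in
/-- **FIBRE SUM.**  In the frame `K[X] → K(X) → F`, `X ↦ y`, with `B`, `B'` the integral
closures of `K[X]`, `K[1/X]` in `F`: the sum of `e_v - 1` over all places of `F` is the sum over
the primes of `B` (grouped by the point `c ∈ K` below them) plus the sum over the primes of `B'`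
above `1/X`; and tameness of all places gives tameness of all primes. -/
def FibreSumStatement : Prop :=
  ∀ (K F : Type) [Field K] [IsAlgClosed K] [Field F] [Algebra K F]
    [Algebra K[X] F] [Algebra (RatFunc K) F] [IsScalarTower K K[X] F]
    [IsScalarTower K[X] (RatFunc K) F] [IsScalarTower K (RatFunc K) F]
    [Algebra (PolyInv K) F] [IsScalarTower (PolyInv K) (RatFunc K) F]
    [IsScalarTower K (PolyInv K) F]
    [FiniteDimensional (RatFunc K) F] [Algebra.IsSeparable (RatFunc K) F]
    [IsDedekindDomain (integralClosure K[X] F)]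
    [IsDedekindDomain (integralClosure (PolyInv K) F)]
    (C : Finset K),
    (∀ c : K, {P : HeightOneSpectrum (integralClosure K[X] F) |
      0 < expAt (Polynomial.X - Polynomial.C c : K[X]) P}.Finite) →
    {P : HeightOneSpectrum (integralClosure (PolyInv K) F) |
      0 < expAt (PolyInv.t : PolyInv K) P}.Finite →
    (∀ (c : K) (P : HeightOneSpectrum (integralClosure K[X] F)),
      1 < expAt (Polynomial.X - Polynomial.C c : K[X]) P → c ∈ C) →
    {v : Place K F | 1 < ramIdx (yOf K F) v}.Finite ∧
    (∑ᶠ v : Place K F, ((ramIdx (yOf K F) v : ℤ) - 1)) =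
      ∑ c ∈ C, ((∑ᶠ P : HeightOneSpectrum (integralClosure K[X] F),
        (expAt (Polynomial.X - Polynomial.C c : K[X]) P - 1) : ℕ) : ℤ) +
      ((∑ᶠ P : HeightOneSpectrum (integralClosure (PolyInv K) F),
        (expAt (PolyInv.t : PolyInv K) P - 1) : ℕ) : ℤ) ∧
    ((∀ v : Place K F, ((ramIdx (yOf K F) v : ℕ) : K) ≠ 0) →
      (∀ (c : K) (P : HeightOneSpectrum (integralClosure K[X] F)),
        0 < expAt (Polynomial.X - Polynomial.C c : K[X]) P →
          ((expAt (Polynomial.X - Polynomial.C c : K[X]) P : ℕ) : K) ≠ 0) ∧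
      (∀ P : HeightOneSpectrum (integralClosure (PolyInv K) F),
        0 < expAt (PolyInv.t : PolyInv K) P →
          ((expAt (PolyInv.t : PolyInv K) P : ℕ) : K) ≠ 0))

end

end Fermat.Agent.H56.RH
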