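import Fermat.Agent.H56.RH.Hurwitz
import Fermat.Agent.H19.RH.FibreSumFinal

/-!
# ES-D-A4: the Hurwitz statement from the local discriminant statement alone
-/

set_option autoImplicit false

namespace Fermat.Agent.H56.RH

/-- ES-D-A4 from the single block which is still open. -/
theorem hurwitz_of_localDiscr (hLD : LocalDiscrStatement) :
    Fermat.Agent.H27.ESD.HurwitzStatement :=
  hurwitz_of_open hLD Fermat.Agent.H19.rhFibreSum

end Fermat.Agent.H56.RH
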