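import Fermat.Agent.H56.RH.HurwitzLD
import Fermat.Agent.H47.RH.LocalDiscr

/-!
# ES-D-A4: Riemann-Hurwitz for the Riemann genus, any characteristic (unconditional)

For `K` algebraically closed, `y ∈ F` transcendental, `F / K(y)` finite separable of degree `n`,
and a Riemann package of genus `g` for `F / K`: the set of ramified places is finite,
`∑ (e_v - 1) ≤ 2 g - 2 + 2 n`, with equality if all ramification indices are nonzero in `K`.

Blocks: lattice count (helper90), local discriminant (helper47, helper75), frame / dictionary /
fibre sum (helper19), global part and assembly (helper56).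
-/

set_option autoImplicit false

namespace Fermat.Agent.H56.RH

/-- **ES-D-A4 (Hurwitz), unconditional.** -/
theorem hurwitz : Fermat.Agent.H27.ESD.HurwitzStatement :=
  hurwitz_of_localDiscr Fermat.Agent.H47.RH.localDiscr

end Fermat.Agent.H56.RH
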