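import Mathlib

/-!
# ES-D-A4: integral bases and their discriminants (generic part)

`A` a PID with fraction field `E`, `F / E` finite separable, `B = integralClosure A F`.
-/

set_option autoImplicit false
set_option linter.style.haveILetI false
set_option linter.unusedSectionVars false

open Polynomial Module

namespace Fermat.Agent.H56.RH

noncomputable section

section generic

variable (A E F : Type) [CommRing A] [IsDomain A] [IsPrincipalIdealRing A] [Field E]
  [Algebra A E] [IsFractionRing A E] [Field F] [Algebra E F] [Algebra A F] [IsScalarTower A E F]
  [FiniteDimensional E F] [Algebra.IsSeparable E F]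

include E in
theorem isTorsionFree_of_tower : Module.IsTorsionFree A F := by
  have hinj : Function.Injective (algebraMap A F) := by
    rw [IsScalarTower.algebraMap_eq A E F]
    exact (algebraMap E F).injective.comp (IsFractionRing.injective A E)
  haveI : FaithfulSMul A F := (faithfulSMul_iff_algebraMap_injective A F).mpr hinj
  infer_instance

include E in
theorem isDedekindDomain_integralClosure : IsDedekindDomain (integralClosure A F) :=
  integralClosure.isDedekindDomain A E F

include E in
theorem isFractionRing_integralClosure : IsFractionRing (integralClosure A F) F :=
  integralClosure.isFractionRing_of_finite_extension E F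

include E in
theorem isLocalization_integralClosure :
    IsLocalization (Algebra.algebraMapSubmonoid (integralClosure A F) (nonZeroDivisors A)) F :=
  IsIntegralClosure.isLocalization_of_isSeparable A E F (integralClosure A F)

/-- an integral basis, indexed by `Fin [F : E]` -/
theorem exists_integral_basis :
    Nonempty (Basis (Fin (finrank E F)) A (integralClosure A F)) := by
  haveI := isTorsionFree_of_tower A E F
  haveI : Module.Free A (integralClosure A F) :=
    IsIntegralClosure.module_free A E F (integralClosure A F)
  haveI : Module.Finite A (integralClosure A F) :=
    IsIntegralClosure.finite A E F (integralClosure A F)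
  have hr : finrank A (integralClosure A F) = finrank E F :=
    IsIntegralClosure.rank A E F (integralClosure A F)
  exact ⟨Module.finBasisOfFinrankEq A (integralClosure A F) hr⟩

variable {A F} {n : ℕ}

/-- the basis of `F / E` induced by an integral basis -/
def fracBasis (u : Basis (Fin n) A (integralClosure A F)) : Basis (Fin n) E F :=
  haveI := isLocalization_integralClosure A E F
  u.localizationLocalization E (nonZeroDivisors A) F

theorem fracBasis_apply (u : Basis (Fin n) A (integralClosure A F)) (i : Fin n) :
    fracBasis E u i = (u i : F) := by
  haveI := isLocalization_integralClosure A E F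
  exact Basis.localizationLocalization_apply E (nonZeroDivisors A) F u i

theorem fracBasis_repr_coe (u : Basis (Fin n) A (integralClosure A F))
    (x : integralClosure A F) (i : Fin n) :
    (fracBasis E u).repr (x : F) i = algebraMap A E (u.repr x i) := by
  haveI := isLocalization_integralClosure A E F
  exact Basis.localizationLocalization_repr_algebraMap E (nonZeroDivisors A) F u x i

theorem discr_fracBasis (u : Basis (Fin n) A (integralClosure A F)) :
    Algebra.discr E (fracBasis E u) = algebraMap A E (Algebra.discr A u) := by
  haveI := isLocalization_integralClosure A E F
  exact Algebra.discr_localizationLocalization A (nonZeroDivisors A) F u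

include E in
theorem discr_ne_zero (u : Basis (Fin n) A (integralClosure A F)) :
    Algebra.discr A u ≠ 0 := by
  intro h
  have h1 := discr_fracBasis E u
  rw [h, map_zero] at h1
  exact Algebra.discr_not_zero_of_basis E (fracBasis E u) h1

/-- membership in the integral closure in terms of coordinates -/
theorem isIntegral_iff_repr_mem (u : Basis (Fin n) A (integralClosure A F)) (f : F) :
    IsIntegral A f ↔ ∀ i, (fracBasis E u).repr f i ∈ (algebraMap A E).range := by
  constructor
  · intro hf i
    have := fracBasis_repr_coe E u ⟨f, hf⟩ i
    exact ⟨_, this.symm⟩
  · intro h
    choose c hc using h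
    have hf : f = ∑ i, c i • (u i : F) := by
      conv_lhs => rw [← (fracBasis E u).sum_repr f]
      refine Finset.sum_congr rfl fun i _ => ?_
      rw [← hc i, fracBasis_apply, algebraMap_smul]
    rw [hf]
    refine IsIntegral.sum _ fun i _ => ?_
    exact IsIntegral.smul _ (u i).2

/-- change of basis for the discriminant -/
theorem discr_eq_det_sq_mul (b b' : Basis (Fin n) E F) :
    Algebra.discr E b' = (b.toMatrix b').det ^ 2 * Algebra.discr E b := by
  have h : (b' : Fin n → F) = Matrix.vecMul (b : Fin n → F)
      ((b.toMatrix b').map (algebraMap E F)) := by
    funext j
    rw [Matrix.vecMul, dotProduct]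
    conv_lhs => rw [← b.sum_toMatrix_smul_self b' j]
    refine Finset.sum_congr rfl fun i _ => ?_
    rw [Matrix.map_apply, Algebra.smul_def, mul_comm]
  have h2 := Algebra.discr_of_matrix_vecMul (b : Fin n → F) (b.toMatrix b')
  rw [← h] at h2
  exact h2

end generic

end

end Fermat.Agent.H56.RH
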