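import Mathlib

/-!
# ES-D-A4: the ring `K[1/X]` inside `K(X)`

`PolyInv K` is a copy of `K[X]` whose algebra map to `RatFunc K` sends `X` to `1/X`.
-/

set_option autoImplicit false
set_option linter.style.haveILetI false

open Polynomial

namespace Fermat.Agent.H56.RH

noncomputable section

variable (K : Type) [Field K]

/-- `K[X] → K(X)`, `X ↦ 1/X`. -/
def aevalInv : K[X] →ₐ[K] RatFunc K := Polynomial.aeval ((RatFunc.X : RatFunc K)⁻¹)

variable {K}

theorem aevalInv_X : aevalInv K (Polynomial.X : K[X]) = (RatFunc.X : RatFunc K)⁻¹ := by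
  simp [aevalInv]

theorem aevalInv_C (c : K) : aevalInv K (Polynomial.C c) = RatFunc.C c := by
  simp [aevalInv, RatFunc.algebraMap_eq_C]

/-- `p(1/X) = (reverse p)(X) * X^(-deg p)`. -/
theorem aevalInv_eq (p : K[X]) :
    aevalInv K p = algebraMap K[X] (RatFunc K) p.reverse *
      ((RatFunc.X : RatFunc K)⁻¹) ^ p.natDegree := by
  letI : Invertible ((RatFunc.X : RatFunc K)⁻¹) :=
    invertibleOfNonzero (inv_ne_zero RatFunc.X_ne_zero)
  have h := Polynomial.eval₂_reverse_mul_pow (algebraMap K (RatFunc K))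
    ((RatFunc.X : RatFunc K)⁻¹) p
  have hinv : ⅟((RatFunc.X : RatFunc K)⁻¹) = RatFunc.X := by
    rw [invOf_eq_inv, inv_inv]
  rw [hinv] at h
  have h2 : Polynomial.eval₂ (algebraMap K (RatFunc K)) (RatFunc.X : RatFunc K) p.reverse =
      algebraMap K[X] (RatFunc K) p.reverse := by
    rw [← Polynomial.aeval_def, ← RatFunc.algebraMap_X, Polynomial.aeval_algebraMap_apply,
      Polynomial.aeval_X_left_apply]
  rw [h2] at h
  rw [h]
  rfl

/-- `p(X) = (reverse p)(1/X) * X^(deg p)`. -/
theorem algebraMap_eq_aevalInv (p : K[X]) :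
    algebraMap K[X] (RatFunc K) p = aevalInv K p.reverse *
      (RatFunc.X : RatFunc K) ^ p.natDegree := by
  letI : Invertible (RatFunc.X : RatFunc K) := invertibleOfNonzero RatFunc.X_ne_zero
  have h := Polynomial.eval₂_reverse_mul_pow (algebraMap K (RatFunc K))
    (RatFunc.X : RatFunc K) p
  have hinv : ⅟(RatFunc.X : RatFunc K) = (RatFunc.X : RatFunc K)⁻¹ := invOf_eq_inv _
  rw [hinv] at h
  have h2 : Polynomial.eval₂ (algebraMap K (RatFunc K)) (RatFunc.X : RatFunc K) p =
      algebraMap K[X] (RatFunc K) p := by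
    rw [← Polynomial.aeval_def, ← RatFunc.algebraMap_X, Polynomial.aeval_algebraMap_apply,
      Polynomial.aeval_X_left_apply]
  rw [h2] at h
  rw [← h]
  rfl

theorem aevalInv_ne_zero {p : K[X]} (hp : p ≠ 0) : aevalInv K p ≠ 0 := by
  rw [aevalInv_eq]
  refine mul_ne_zero (RatFunc.algebraMap_ne_zero ?_) (pow_ne_zero _ (inv_ne_zero RatFunc.X_ne_zero))
  rwa [ne_eq, Polynomial.reverse_eq_zero]

theorem aevalInv_injective : Function.Injective (aevalInv K) := by
  rw [injective_iff_map_eq_zero]
  intro p hp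
  by_contra h
  exact aevalInv_ne_zero h hp

/-- The degree of `p(1/X)` is minus the trailing degree of `p`. -/
theorem intDegree_aevalInv {p : K[X]} (hp : p ≠ 0) :
    (aevalInv K p).intDegree = -(p.natTrailingDegree : ℤ) := by
  rw [aevalInv_eq, RatFunc.intDegree_mul (RatFunc.algebraMap_ne_zero
    (by rwa [ne_eq, Polynomial.reverse_eq_zero])) (pow_ne_zero _ (inv_ne_zero RatFunc.X_ne_zero)),
    RatFunc.intDegree_polynomial, Polynomial.reverse_natDegree]
  have h1 : (((RatFunc.X : RatFunc K)⁻¹) ^ p.natDegree).intDegree = -(p.natDegree : ℤ) := by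
    rw [inv_pow, RatFunc.intDegree_inv]
    congr 1
    induction p.natDegree with
    | zero => simp
    | succ k ih =>
      rw [pow_succ, RatFunc.intDegree_mul (pow_ne_zero _ RatFunc.X_ne_zero) RatFunc.X_ne_zero,
        ih, RatFunc.intDegree_X]
      push_cast
      ring
  rw [h1]
  have h2 := Polynomial.natTrailingDegree_le_natDegree (p := p)
  push_cast [Nat.cast_sub h2]
  ring

variable (K)

/-- A copy of `K[X]`, mapped to `K(X)` by `X ↦ 1/X`. -/
def PolyInv : Type := K[X]

instance : CommRing (PolyInv K) := inferInstanceAs (CommRing K[X])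
instance : IsDomain (PolyInv K) := inferInstanceAs (IsDomain K[X])
instance : IsPrincipalIdealRing (PolyInv K) := inferInstanceAs (IsPrincipalIdealRing K[X])
instance : Algebra K (PolyInv K) := inferInstanceAs (Algebra K K[X])

/-- the identification `K[X] ≃ PolyInv K` -/
def PolyInv.of : K[X] ≃ₐ[K] PolyInv K := AlgEquiv.refl

instance : Algebra (PolyInv K) (RatFunc K) := (aevalInv K).toRingHom.toAlgebra

variable {K}

theorem PolyInv.algebraMap_apply (p : PolyInv K) :
    algebraMap (PolyInv K) (RatFunc K) p = aevalInv K ((PolyInv.of K).symm p) := rfl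

theorem PolyInv.algebraMap_of (p : K[X]) :
    algebraMap (PolyInv K) (RatFunc K) (PolyInv.of K p) = aevalInv K p := rfl

instance : IsScalarTower K (PolyInv K) (RatFunc K) :=
  IsScalarTower.of_algebraMap_eq fun c => by
    rw [PolyInv.algebraMap_apply]
    exact ((aevalInv K).commutes c).symm

instance : FaithfulSMul (PolyInv K) (RatFunc K) :=
  (faithfulSMul_iff_algebraMap_injective _ _).mpr aevalInv_injective

instance : IsFractionRing (PolyInv K) (RatFunc K) := by
  refine IsFractionRing.of_field (PolyInv K) (RatFunc K) fun z => ?_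
  refine ⟨PolyInv.of K (z.num.reverse * Polynomial.X ^ z.denom.natDegree),
    PolyInv.of K (z.denom.reverse * Polynomial.X ^ z.num.natDegree), ?_⟩
  rw [PolyInv.algebraMap_of, PolyInv.algebraMap_of, map_mul, map_mul, map_pow, map_pow,
    aevalInv_X]
  have hX : (RatFunc.X : RatFunc K) ≠ 0 := RatFunc.X_ne_zero
  have hd : aevalInv K z.denom.reverse ≠ 0 :=
    aevalInv_ne_zero (by rw [ne_eq, Polynomial.reverse_eq_zero]; exact z.denom_ne_zero)
  conv_lhs => rw [← RatFunc.num_div_denom z, algebraMap_eq_aevalInv z.num,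
    algebraMap_eq_aevalInv z.denom]
  rw [div_eq_div_iff (mul_ne_zero hd (pow_ne_zero _ hX))
    (mul_ne_zero hd (pow_ne_zero _ (inv_ne_zero hX)))]
  have e1 : ∀ k : ℕ, (RatFunc.X : RatFunc K) ^ k * ((RatFunc.X : RatFunc K)⁻¹) ^ k = 1 := by
    intro k
    rw [← mul_pow, mul_inv_cancel₀ hX, one_pow]
  calc aevalInv K z.num.reverse * RatFunc.X ^ z.num.natDegree *
        (aevalInv K z.denom.reverse * (RatFunc.X)⁻¹ ^ z.num.natDegree)
      = aevalInv K z.num.reverse * aevalInv K z.denom.reverse *
        (RatFunc.X ^ z.num.natDegree * (RatFunc.X)⁻¹ ^ z.num.natDegree) := by ring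
    _ = aevalInv K z.num.reverse * aevalInv K z.denom.reverse *
        (RatFunc.X ^ z.denom.natDegree * (RatFunc.X)⁻¹ ^ z.denom.natDegree) := by
        rw [e1, e1]
    _ = _ := by ring

/-- the prime element `X` of `PolyInv K` (it maps to `1/X`) -/
def PolyInv.t : PolyInv K := PolyInv.of K Polynomial.X

theorem PolyInv.algebraMap_t : algebraMap (PolyInv K) (RatFunc K) PolyInv.t =
    (RatFunc.X : RatFunc K)⁻¹ := by
  rw [PolyInv.t, PolyInv.algebraMap_of, aevalInv_X]

theorem PolyInv.prime_t : Prime (PolyInv.t : PolyInv K) :=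
  (Polynomial.prime_X : Prime (Polynomial.X : K[X]))

theorem bijective_mk_X_sub_C (a : K) :
    Function.Bijective (fun c : K =>
      Ideal.Quotient.mk (Ideal.span {(Polynomial.X - Polynomial.C a : K[X])})
        (algebraMap K K[X] c)) := by
  constructor
  · intro c d h
    simp only at h
    rw [Ideal.Quotient.eq, Ideal.mem_span_singleton, ← map_sub] at h
    by_contra hcd
    have hne : c - d ≠ 0 := sub_ne_zero.mpr hcd
    have hunit : IsUnit (algebraMap K K[X] (c - d)) :=
      (IsUnit.mk0 _ hne).map _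
    exact (Polynomial.prime_X_sub_C a).not_isUnit (isUnit_of_dvd_unit h hunit)
  · intro x
    obtain ⟨p, rfl⟩ := Ideal.Quotient.mk_surjective x
    refine ⟨p.eval a, ?_⟩
    simp only
    rw [Ideal.Quotient.eq, Ideal.mem_span_singleton, ← Polynomial.C_eq_algebraMap]
    have := Polynomial.X_sub_C_dvd_sub_C_eval (a := a) (p := p)
    exact (dvd_neg.mpr this).trans (by rw [neg_sub])

theorem PolyInv.bijective_mk_t :
    Function.Bijective (fun c : K =>
      Ideal.Quotient.mk (Ideal.span {(PolyInv.t : PolyInv K)})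
        (algebraMap K (PolyInv K) c)) := by
  have h := bijective_mk_X_sub_C (K := K) 0
  rw [map_zero, sub_zero] at h
  exact h

end

end Fermat.Agent.H56.RH
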