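import Fermat.Agent.H56.RH.Interfaces
import Fermat.Agent.H56.RH.Interfaces2
import Fermat.Agent.H56.RH.PolyInv
import Fermat.Agent.H56.RH.Bases
import Fermat.Agent.H29.PlaceBasics
import Fermat.Agent.H27.ESD.Interfaces

/-!
# ES-D-A4: the global part (Riemann-Roch spaces of `m (y)_∞` as lattice spaces)
-/

set_option autoImplicit false
set_option linter.style.haveILetI false
set_option linter.unusedSectionVars false

open Polynomial Module AlgebraicCurve IsDedekindDomain

namespace Fermat.Agent.H56.RH

noncomputable section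

variable {K F : Type} [Field K] [Field F] [Algebra K F]
  [Algebra K[X] F] [Algebra (RatFunc K) F] [IsScalarTower K K[X] F]
  [IsScalarTower K[X] (RatFunc K) F] [IsScalarTower K (RatFunc K) F]
  [Algebra (PolyInv K) F] [IsScalarTower (PolyInv K) (RatFunc K) F]
  [IsScalarTower K (PolyInv K) F]

variable (K F) in
/-- the coordinate function: the image of `X` -/
def yOf : F := algebraMap (RatFunc K) F RatFunc.X

theorem algebraMap_poly_X : algebraMap K[X] F Polynomial.X = yOf K F := by
  rw [IsScalarTower.algebraMap_apply K[X] (RatFunc K) F, RatFunc.algebraMap_X, yOf]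

theorem algebraMap_poly_eq_aeval (p : K[X]) : algebraMap K[X] F p = Polynomial.aeval (yOf K F) p := by
  have h := Polynomial.aeval_algHom_apply (IsScalarTower.toAlgHom K K[X] F) Polynomial.X p
  rw [Polynomial.aeval_X_left_apply] at h
  rw [← algebraMap_poly_X]
  exact h.symm

theorem yOf_ne_zero : yOf K F ≠ 0 := by
  rw [yOf]
  exact (_root_.map_ne_zero _).mpr RatFunc.X_ne_zero

theorem algebraMap_polyInv_t : algebraMap (PolyInv K) F PolyInv.t = (yOf K F)⁻¹ := by
  rw [IsScalarTower.algebraMap_apply (PolyInv K) (RatFunc K) F, PolyInv.algebraMap_t, map_inv₀,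
    yOf]

theorem algebraMap_polyInv_eq_aeval (p : PolyInv K) :
    algebraMap (PolyInv K) F p = Polynomial.aeval (yOf K F)⁻¹ ((PolyInv.of K).symm p) := by
  rw [IsScalarTower.algebraMap_apply (PolyInv K) (RatFunc K) F, PolyInv.algebraMap_apply,
    aevalInv]
  have h := Polynomial.aeval_algHom_apply (IsScalarTower.toAlgHom K (RatFunc K) F)
    ((RatFunc.X : RatFunc K)⁻¹) ((PolyInv.of K).symm p)
  have h2 : (IsScalarTower.toAlgHom K (RatFunc K) F) (RatFunc.X : RatFunc K)⁻¹ =
      (yOf K F)⁻¹ := by
    simp [yOf]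
  rw [h2] at h
  exact h.symm

theorem range_algebraMap_poly :
    Set.range (algebraMap K[X] F) = (Algebra.adjoin K {yOf K F} : Set F) := by
  rw [Algebra.adjoin_singleton_eq_range_aeval]
  ext f
  simp only [Set.mem_range, AlgHom.coe_range]
  constructor
  · rintro ⟨p, rfl⟩
    exact ⟨p, (algebraMap_poly_eq_aeval p).symm⟩
  · rintro ⟨p, rfl⟩
    exact ⟨p, algebraMap_poly_eq_aeval p⟩

theorem range_algebraMap_polyInv :
    Set.range (algebraMap (PolyInv K) F) = (Algebra.adjoin K {(yOf K F)⁻¹} : Set F) := by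
  rw [Algebra.adjoin_singleton_eq_range_aeval]
  ext f
  simp only [Set.mem_range, AlgHom.coe_range]
  constructor
  · rintro ⟨p, rfl⟩
    exact ⟨(PolyInv.of K).symm p, (algebraMap_polyInv_eq_aeval p).symm⟩
  · rintro ⟨p, rfl⟩
    exact ⟨PolyInv.of K p, algebraMap_polyInv_eq_aeval (PolyInv.of K p)⟩

theorem yOf_transcendental : Transcendental K (yOf K F) := by
  rw [transcendental_iff_injective]
  have h : (Polynomial.aeval (yOf K F) : K[X] → F) = algebraMap K[X] F := by
    funext p
    exact (algebraMap_poly_eq_aeval p).symm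
  rw [h, IsScalarTower.algebraMap_eq K[X] (RatFunc K) F]
  exact (algebraMap (RatFunc K) F).injective.comp (RatFunc.algebraMap_injective K)

theorem yOf_inv_transcendental : Transcendental K (yOf K F)⁻¹ := by
  rw [transcendental_iff_injective]
  have h : (Polynomial.aeval (yOf K F)⁻¹ : K[X] → F) =
      fun p => algebraMap (PolyInv K) F (PolyInv.of K p) := by
    funext p
    exact (algebraMap_polyInv_eq_aeval (PolyInv.of K p)).symm
  rw [h]
  have : Function.Injective (algebraMap (PolyInv K) F) := by
    rw [IsScalarTower.algebraMap_eq (PolyInv K) (RatFunc K) F]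
    exact (algebraMap (RatFunc K) F).injective.comp (IsFractionRing.injective _ _)
  exact this.comp (PolyInv.of K).injective

/-- strong form of DICT (no hypotheses on `K`, `y`) -/
def DictStrongStatement : Prop :=
  ∀ (K F A B : Type) [Field K] [Field F] [Algebra K F] [CommRing A] [Algebra A F]
    [CommRing B] [IsDomain B] [IsDedekindDomain B] [Algebra K B] [Algebra B F]
    [IsScalarTower K B F] [IsFractionRing B F] [Algebra A B] [IsScalarTower A B F]
    [IsIntegralClosure B A F] (y : F),
    Set.range (algebraMap A F) = (Algebra.adjoin K {y} : Set F) →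
    (∀ v : Place K F, 0 ≤ v.ord y →
      ∃ w : HeightOneSpectrum B, Place.ofHeightOneSpectrum (K := K) (F := F) w = v) ∧
    (∀ w : HeightOneSpectrum B, 0 ≤ (Place.ofHeightOneSpectrum (K := K) (F := F) w).ord y) ∧
    (∀ f : F, f ∈ Set.range (algebraMap B F) ↔ ∀ v : Place K F, 0 ≤ v.ord y → 0 ≤ v.ord f)

section places

variable [FiniteDimensional (RatFunc K) F] [Algebra.IsSeparable (RatFunc K) F]

theorem isIntegral_poly_iff (hDI : DictStrongStatement) (f : F) :
    IsIntegral K[X] f ↔ ∀ v : Place K F, 0 ≤ v.ord (yOf K F) → 0 ≤ v.ord f := by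
  haveI := isDedekindDomain_integralClosure K[X] (RatFunc K) F
  haveI := isFractionRing_integralClosure K[X] (RatFunc K) F
  have h := (hDI K F K[X] (integralClosure K[X] F) (yOf K F) range_algebraMap_poly).2.2 f
  rw [← h]
  constructor
  · intro hf
    exact ⟨⟨f, hf⟩, rfl⟩
  · rintro ⟨x, rfl⟩
    exact x.2

theorem isIntegral_polyInv_iff (hDI : DictStrongStatement) (f : F) :
    IsIntegral (PolyInv K) f ↔ ∀ v : Place K F, 0 ≤ v.ord (yOf K F)⁻¹ → 0 ≤ v.ord f := by
  haveI := isDedekindDomain_integralClosure (PolyInv K) (RatFunc K) F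
  haveI := isFractionRing_integralClosure (PolyInv K) (RatFunc K) F
  have h := (hDI K F (PolyInv K) (integralClosure (PolyInv K) F) (yOf K F)⁻¹
    range_algebraMap_polyInv).2.2 f
  rw [← h]
  constructor
  · intro hf
    exact ⟨⟨f, hf⟩, rfl⟩
  · rintro ⟨x, rfl⟩
    exact x.2

/-- the pole divisor attached to the divisor `D` of `y` -/
def poleDiv (D : Divisor K F) : Divisor K F :=
  Finsupp.mapRange (fun k : ℤ => max (-k) 0) (by simp) D

theorem poleDiv_apply (D : Divisor K F) (v : Place K F) : poleDiv D v = max (-(D v)) 0 := by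
  simp [poleDiv]

theorem mem_rrSpace_iff (hDI : DictStrongStatement) (D : Divisor K F)
    (hD : ∀ v : Place K F, D v = v.ord (yOf K F)) (m : ℤ) (f : F) :
    f ∈ riemannRochSpace (m • poleDiv D) ↔
      IsIntegral K[X] f ∧ IsIntegral (PolyInv K) ((yOf K F) ^ (-m) * f) := by
  rw [isIntegral_poly_iff hDI, isIntegral_polyInv_iff hDI, mem_riemannRochSpace_iff]
  have hy0 : yOf K F ≠ 0 := yOf_ne_zero
  rcases eq_or_ne f 0 with rfl | hf
  · simp
  have hord : ∀ v : Place K F, v.ord ((yOf K F) ^ (-m) * f) = -m * v.ord (yOf K F) + v.ord f := by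
    intro v
    rw [v.ord_mul (zpow_ne_zero _ hy0) hf, v.ord_zpow]
  constructor
  · intro h
    refine ⟨fun v hv => ?_, fun v hv => ?_⟩
    · have h1 := (h v).resolve_left hf
      rw [Finsupp.smul_apply, poleDiv_apply, hD, smul_eq_mul, max_eq_right (by omega)] at h1
      simpa using h1
    · have h1 := (h v).resolve_left hf
      rw [v.ord_inv] at hv
      rw [Finsupp.smul_apply, poleDiv_apply, hD, smul_eq_mul, max_eq_left (by omega)] at h1
      rw [hord]
      linarith
  · rintro ⟨h1, h2⟩ v
    right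
    rw [Finsupp.smul_apply, poleDiv_apply, hD, smul_eq_mul]
    rcases le_or_gt 0 (v.ord (yOf K F)) with hv | hv
    · rw [max_eq_right (by omega)]
      simpa using h1 v hv
    · have h3 := h2 v (by rw [v.ord_inv]; omega)
      rw [hord] at h3
      rw [max_eq_left (by omega)]
      linarith

theorem mem_polySub_iff (x : RatFunc K) :
    x ∈ polySub K ↔ x ∈ (algebraMap K[X] (RatFunc K)).range := by
  simp only [polySub, AlgHom.mem_range, RingHom.mem_range]
  rfl

theorem mem_invPolySub_iff (x : RatFunc K) :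
    x ∈ invPolySub K ↔ x ∈ (algebraMap (PolyInv K) (RatFunc K)).range := by
  simp only [invPolySub, AlgHom.mem_range, RingHom.mem_range]
  rfl

theorem rrSpace_eq_latticeSpace (hDI : DictStrongStatement) (D : Divisor K F)
    (hD : ∀ v : Place K F, D v = v.ord (yOf K F)) {n : ℕ}
    (u : Basis (Fin n) K[X] (integralClosure K[X] F))
    (u' : Basis (Fin n) (PolyInv K) (integralClosure (PolyInv K) F)) (m : ℤ) :
    riemannRochSpace (m • poleDiv D) =
      latticeSpace (fracBasis (RatFunc K) u) (fracBasis (RatFunc K) u') m := by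
  ext f
  rw [mem_rrSpace_iff hDI D hD, isIntegral_iff_repr_mem (RatFunc K) u,
    isIntegral_iff_repr_mem (RatFunc K) u']
  have hsm : (yOf K F) ^ (-m) * f = ((RatFunc.X : RatFunc K) ^ (-m)) • f := by
    rw [Algebra.smul_def, map_zpow₀]
    rfl
  simp only [latticeSpace, Submodule.mem_mk, AddSubmonoid.mem_mk, AddSubsemigroup.mem_mk,
    Set.mem_ofPred_eq, mem_polySub_iff, mem_invPolySub_iff, hsm, map_smul, Finsupp.smul_apply,
    smul_eq_mul]

/-- clearing the poles at the zeros of `z` -/
theorem exists_pow_mul_regular (z : F) (hz : z ≠ 0) (D : Divisor K F)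
    (hD : ∀ v : Place K F, D v = v.ord z) (f : F)
    (hf : ∀ v : Place K F, 0 ≤ v.ord z⁻¹ → 0 ≤ v.ord f) :
    ∃ k : ℕ, ∀ v : Place K F, 0 ≤ v.ord z → 0 ≤ v.ord (z ^ k * f) := by
  rcases eq_or_ne f 0 with rfl | hf0
  · exact ⟨0, fun v _ => by simp⟩
  obtain ⟨k, hk⟩ : ∃ k : ℕ, ∀ v ∈ D.support, (v.ord f).natAbs ≤ k :=
    ⟨∑ v ∈ D.support, (v.ord f).natAbs, fun v hv =>
      Finset.single_le_sum (f := fun w => (w.ord f).natAbs) (fun _ _ => Nat.zero_le _) hv⟩
  refine ⟨k, fun v hv => ?_⟩
  rw [v.ord_mul (pow_ne_zero _ hz) hf0, ← zpow_natCast, v.ord_zpow]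
  rcases hv.eq_or_lt with h0 | hpos
  · rw [← h0, mul_zero, zero_add]
    exact hf v (by rw [v.ord_inv, ← h0]; simp)
  · have hmem : v ∈ D.support := by
      rw [Finsupp.mem_support_iff, hD]
      exact hpos.ne'
    have hk' : ((v.ord f).natAbs : ℤ) ≤ (k : ℤ) := by
      exact_mod_cast hk v hmem
    have hk0 : (0 : ℤ) ≤ (k : ℤ) := Int.natCast_nonneg k
    have h1 : (k : ℤ) ≤ (k : ℤ) * v.ord z := by nlinarith
    have h2 : -(v.ord f) ≤ ((v.ord f).natAbs : ℤ) := by
      rw [← Int.natAbs_neg]
      exact Int.le_natAbs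
    linarith

variable {n : ℕ}

theorem laurent_compat_left (hDI : DictStrongStatement) (D : Divisor K F)
    (hD : ∀ v : Place K F, D v = v.ord (yOf K F))
    (u : Basis (Fin n) K[X] (integralClosure K[X] F))
    (u' : Basis (Fin n) (PolyInv K) (integralClosure (PolyInv K) F)) :
    ∀ j, ∃ k : ℕ, ∀ i, (RatFunc.X : RatFunc K) ^ k *
      (fracBasis (RatFunc K) u).repr (fracBasis (RatFunc K) u' j) i ∈ polySub K := by
  intro j
  have hint : IsIntegral (PolyInv K) (fracBasis (RatFunc K) u' j) := by
    rw [fracBasis_apply]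
    exact (u' j).2
  rw [isIntegral_polyInv_iff hDI] at hint
  obtain ⟨k, hk⟩ := exists_pow_mul_regular (yOf K F) yOf_ne_zero D hD _ hint
  refine ⟨k, ?_⟩
  have h2 : IsIntegral K[X] ((yOf K F) ^ k * fracBasis (RatFunc K) u' j) :=
    (isIntegral_poly_iff hDI _).mpr hk
  rw [isIntegral_iff_repr_mem (RatFunc K) u] at h2
  intro i
  have hsm : (yOf K F) ^ k * fracBasis (RatFunc K) u' j =
      ((RatFunc.X : RatFunc K) ^ k) • fracBasis (RatFunc K) u' j := by
    rw [Algebra.smul_def, map_pow]
    rfl
  have h3 := h2 i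
  rw [hsm, map_smul, Finsupp.smul_apply, smul_eq_mul] at h3
  exact (mem_polySub_iff _).mpr h3

theorem laurent_compat_right (hDI : DictStrongStatement) (D : Divisor K F)
    (hD : ∀ v : Place K F, D v = v.ord (yOf K F))
    (u : Basis (Fin n) K[X] (integralClosure K[X] F))
    (u' : Basis (Fin n) (PolyInv K) (integralClosure (PolyInv K) F)) :
    ∀ i, ∃ k : ℕ, ∀ j, ((RatFunc.X : RatFunc K)⁻¹) ^ k *
      (fracBasis (RatFunc K) u').repr (fracBasis (RatFunc K) u i) j ∈ invPolySub K := by
  intro i
  have hint : IsIntegral K[X] (fracBasis (RatFunc K) u i) := by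
    rw [fracBasis_apply]
    exact (u i).2
  rw [isIntegral_poly_iff hDI] at hint
  have hD' : ∀ v : Place K F, (-D) v = v.ord (yOf K F)⁻¹ := by
    intro v
    rw [Finsupp.neg_apply, hD, v.ord_inv]
  obtain ⟨k, hk⟩ := exists_pow_mul_regular (yOf K F)⁻¹ (inv_ne_zero yOf_ne_zero) (-D) hD' _
    (by rw [inv_inv]; exact hint)
  refine ⟨k, ?_⟩
  have h2 : IsIntegral (PolyInv K) (((yOf K F)⁻¹) ^ k * fracBasis (RatFunc K) u i) :=
    (isIntegral_polyInv_iff hDI _).mpr hk
  rw [isIntegral_iff_repr_mem (RatFunc K) u'] at h2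
  intro j
  have hsm : ((yOf K F)⁻¹) ^ k * fracBasis (RatFunc K) u i =
      (((RatFunc.X : RatFunc K)⁻¹) ^ k) • fracBasis (RatFunc K) u i := by
    rw [Algebra.smul_def, map_pow, map_inv₀]
    rfl
  have h3 := h2 j
  rw [hsm, map_smul, Finsupp.smul_apply, smul_eq_mul] at h3
  exact (mem_invPolySub_iff _).mpr h3

theorem degree_poleDiv_nonneg (D : Divisor K F) : 0 ≤ Divisor.degree (poleDiv D) := by
  have h : Divisor.degree (poleDiv D) =
      (poleDiv D).sum fun v k => k * (v.deg : ℤ) := by
    simp [Divisor.degree, Finsupp.liftAddHom_apply]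
  rw [h]
  refine Finset.sum_nonneg fun v _ => ?_
  have : 0 ≤ poleDiv D v := by
    rw [poleDiv_apply]
    exact le_max_right _ _
  positivity

open Fermat.Agent.H27.ESD in
/-- **the genus in terms of the transition determinant** -/
theorem genus_eq (hDI : DictStrongStatement) (hLC : LatticeCountStatement) (g : ℕ)
    (h : RiemannPackage K F g)
    (u : Basis (Fin n) K[X] (integralClosure K[X] F))
    (u' : Basis (Fin n) (PolyInv K) (integralClosure (PolyInv K) F)) :
    (g : ℤ) = 1 - n -
      ((fracBasis (RatFunc K) u).toMatrix (fracBasis (RatFunc K) u')).det.intDegree := by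
  haveI := h.principal
  obtain ⟨D, hD, -⟩ := HasPrincipalDivisors.exists_divisor (K := K) (yOf K F) yOf_ne_zero
  obtain ⟨m₀, hm₀⟩ := hLC K F n (fracBasis (RatFunc K) u) (fracBasis (RatFunc K) u')
    (laurent_compat_left hDI D hD u u') (laurent_compat_right hDI D hD u u')
  obtain ⟨c, hc⟩ := h.eq_of_large
  set d := ((fracBasis (RatFunc K) u).toMatrix (fracBasis (RatFunc K) u')).det.intDegree with hd
  set δ := Divisor.degree (poleDiv D) with hδ
  have hδ0 : 0 ≤ δ := degree_poleDiv_nonneg D
  have hn : 1 ≤ n := by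
    by_contra hn0
    have hn0' : n = 0 := by omega
    subst hn0'
    have := (fracBasis (RatFunc K) u).index_nonempty
    exact (IsEmpty.false (α := Fin 0)) this.some
  -- the count for every large `m`
  have key : ∀ m : ℤ, m₀ ≤ m → c ≤ m * δ →
      m * δ + 1 - (g : ℤ) = n * (m + 1) + d := by
    intro m hm hcm
    have h1 := (hm₀ m hm).2
    have h2 := hc (m • poleDiv D) (by rw [map_zsmul, smul_eq_mul]; exact hcm)
    rw [map_zsmul, smul_eq_mul] at h2
    rw [rrSpace_eq_latticeSpace hDI D hD u u' m] at h2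
    rw [← h2, h1]
  rcases hδ0.eq_or_lt with h0 | hpos
  · -- no pole: impossible
    exfalso
    have hL : ∀ m : ℤ, m₀ ≤ m →
        (1 : ℤ) = n * (m + 1) + d := by
      intro m hm
      have h1 := (hm₀ m hm).2
      have h2 : riemannRochSpace (m • poleDiv D) = riemannRochSpace (0 : Divisor K F) := by
        have : poleDiv D = 0 := by
          ext v
          have hv : 0 ≤ poleDiv D v := by
            rw [poleDiv_apply]; exact le_max_right _ _
          by_contra hne
          have hvpos : 0 < poleDiv D v := lt_of_le_of_ne hv (Ne.symm hne)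
          have hsum : Divisor.degree (poleDiv D) =
              (poleDiv D).sum fun v k => k * (v.deg : ℤ) := by
            simp [Divisor.degree, Finsupp.liftAddHom_apply]
          have hmem : v ∈ (poleDiv D).support := Finsupp.mem_support_iff.mpr hne
          have hle : poleDiv D v * (v.deg : ℤ) ≤ Divisor.degree (poleDiv D) := by
            rw [hsum]
            refine Finset.single_le_sum (f := fun w => poleDiv D w * (w.deg : ℤ))
              (fun w _ => ?_) hmem
            have : 0 ≤ poleDiv D w := by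
              rw [poleDiv_apply]; exact le_max_right _ _
            positivity
          rw [h.deg_one v] at hle
          simp only [Nat.cast_one, mul_one] at hle
          omega
        rw [this, smul_zero]
      rw [← rrSpace_eq_latticeSpace hDI D hD u u' m, h2, h.finrank_zero] at h1
      exact_mod_cast h1
    have e1 := hL (max m₀ 0) (le_max_left _ _)
    have e2 := hL (max m₀ 0 + 1) (by have := le_max_left m₀ 0; omega)
    have hn' : (1 : ℤ) ≤ n := by exact_mod_cast hn
    nlinarith
  · -- `δ ≥ 1`
    set M : ℤ := max (max m₀ c) 0 with hM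
    have hM0 : 0 ≤ M := le_max_right _ _
    have hMm : m₀ ≤ M := le_trans (le_max_left _ _) (le_max_left _ _)
    have hMc : c ≤ M := le_trans (le_max_right _ _) (le_max_left _ _)
    have e1 := key M hMm (by nlinarith)
    have e2 := key (M + 1) (by omega) (by nlinarith)
    have hδn : δ = n := by linarith
    rw [hδn] at e1
    linarith

theorem det_toMatrix_ne_zero {E V : Type} [Field E] [AddCommGroup V] [Module E V]
    (b b' : Basis (Fin n) E V) : (b.toMatrix b').det ≠ 0 := by
  intro h0
  have h1 : b.toMatrix b' * b'.toMatrix b = 1 := Basis.toMatrix_mul_toMatrix_flip b b'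
  have h2 := congrArg Matrix.det h1
  rw [Matrix.det_mul, h0, zero_mul, Matrix.det_one] at h2
  exact zero_ne_one h2

/-- **degree bookkeeping for the discriminants** -/
theorem discr_degree
    (u : Basis (Fin n) K[X] (integralClosure K[X] F))
    (u' : Basis (Fin n) (PolyInv K) (integralClosure (PolyInv K) F)) :
    ((Algebra.discr K[X] u).natDegree : ℤ) +
      (((PolyInv.of K).symm (Algebra.discr (PolyInv K) u')).natTrailingDegree : ℤ) =
      -2 * ((fracBasis (RatFunc K) u).toMatrix (fracBasis (RatFunc K) u')).det.intDegree := by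
  have h1 := discr_eq_det_sq_mul (RatFunc K) (fracBasis (RatFunc K) u)
    (fracBasis (RatFunc K) u')
  rw [discr_fracBasis, discr_fracBasis, PolyInv.algebraMap_apply] at h1
  have hd1 : Algebra.discr K[X] u ≠ 0 := discr_ne_zero (RatFunc K) u
  have hd2 : (PolyInv.of K).symm (Algebra.discr (PolyInv K) u') ≠ 0 := by
    have := discr_ne_zero (RatFunc K) u'
    intro h
    apply this
    have h' := congrArg (PolyInv.of K) h
    simpa using h'
  have hdet := det_toMatrix_ne_zero (fracBasis (RatFunc K) u) (fracBasis (RatFunc K) u')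
  have h2 := congrArg RatFunc.intDegree h1
  rw [intDegree_aevalInv hd2, RatFunc.intDegree_mul (pow_ne_zero _ hdet)
    (RatFunc.algebraMap_ne_zero hd1), RatFunc.intDegree_polynomial, pow_two,
    RatFunc.intDegree_mul hdet hdet] at h2
  linarith

open Fermat.Agent.H27.ESD in
/-- **the Hurwitz number `2g - 2 + 2n` is the total degree of the discriminant.** -/
theorem hurwitz_number (hDI : DictStrongStatement) (hLC : LatticeCountStatement) (g : ℕ)
    (h : RiemannPackage K F g)
    (u : Basis (Fin n) K[X] (integralClosure K[X] F))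
    (u' : Basis (Fin n) (PolyInv K) (integralClosure (PolyInv K) F)) :
    2 * (g : ℤ) - 2 + 2 * (n : ℤ) = ((Algebra.discr K[X] u).natDegree : ℤ) +
      (((PolyInv.of K).symm (Algebra.discr (PolyInv K) u')).natTrailingDegree : ℤ) := by
  rw [discr_degree u u', genus_eq hDI hLC g h u u']
  ring

end places

end

end Fermat.Agent.H56.RH
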