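import Fermat.Agent.H56.RH.Interfaces3

/-!
# ES-D-A4: final assembly of the Hurwitz statement
-/

set_option autoImplicit false
set_option linter.style.haveILetI false
set_option linter.unusedSectionVars false

open Polynomial Module AlgebraicCurve IsDedekindDomain IntermediateField

namespace Fermat.Agent.H56.RH

noncomputable section

theorem single_le_finsum_nat {α : Type} (f : α → ℕ) (hf : (Function.support f).Finite) (a : α) :
    f a ≤ ∑ᶠ x, f x := by
  rw [finsum_eq_sum_of_support_subset f (s := hf.toFinset) (by simp)]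
  by_cases ha : f a = 0
  · rw [ha]; exact Nat.zero_le _
  · exact Finset.single_le_sum (f := f) (fun _ _ => Nat.zero_le _)
      (by simpa using ha)

theorem sum_rootMultiplicity_eq_natDegree {K : Type} [Field K] [IsAlgClosed K] [DecidableEq K]
    (p : K[X]) :
    ∑ c ∈ p.roots.toFinset, p.rootMultiplicity c = p.natDegree := by
  rw [← IsAlgClosed.card_roots_eq_natDegree (p := p), ← Multiset.toFinset_sum_count_eq]
  refine Finset.sum_congr rfl fun c _ => ?_
  rw [Polynomial.count_roots]

theorem multiplicity_X_sub_C_eq {K : Type} [Field K] {p : K[X]} (hp : p ≠ 0) (c : K) :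
    multiplicity (Polynomial.X - Polynomial.C c) p = p.rootMultiplicity c := by
  classical
  rw [Polynomial.rootMultiplicity_eq_multiplicity, if_neg hp]

theorem multiplicity_polyInv_t {K : Type} [Field K] {p : PolyInv K} (hp : p ≠ 0) :
    multiplicity (PolyInv.t : PolyInv K) p = ((PolyInv.of K).symm p).natTrailingDegree := by
  have h0 : (PolyInv.of K).symm p ≠ 0 := fun h => hp (by
    have := congrArg (PolyInv.of K) h
    simpa using this)
  have h1 : multiplicity (PolyInv.t : PolyInv K) p =
      multiplicity (Polynomial.X - Polynomial.C (0 : K)) ((PolyInv.of K).symm p) := by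
    rw [map_zero, sub_zero]
    rfl
  rw [h1, multiplicity_X_sub_C_eq h0, Polynomial.rootMultiplicity_eq_natTrailingDegree']

section core

variable {K F : Type} [Field K] [IsAlgClosed K] [Field F] [Algebra K F]
  [Algebra K[X] F] [Algebra (RatFunc K) F] [IsScalarTower K K[X] F]
  [IsScalarTower K[X] (RatFunc K) F] [IsScalarTower K (RatFunc K) F]
  [Algebra (PolyInv K) F] [IsScalarTower (PolyInv K) (RatFunc K) F]
  [IsScalarTower K (PolyInv K) F]
  [FiniteDimensional (RatFunc K) F] [Algebra.IsSeparable (RatFunc K) F]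

open Fermat.Agent.H27.ESD in
theorem hurwitz_core (hLC : LatticeCountStatement) (hLD : LocalDiscrStatement)
    (hDI : DictStrongStatement) (hFS : FibreSumStatement) (g : ℕ)
    (h : RiemannPackage K F g) :
    {v : Place K F | 1 < ramIdx (yOf K F) v}.Finite ∧
    (∑ᶠ v : Place K F, ((ramIdx (yOf K F) v : ℤ) - 1)) ≤
      2 * (g : ℤ) - 2 + 2 * (finrank (RatFunc K) F : ℤ) ∧
    ((∀ v : Place K F, ((ramIdx (yOf K F) v : ℕ) : K) ≠ 0) →
      (∑ᶠ v : Place K F, ((ramIdx (yOf K F) v : ℤ) - 1)) =
        2 * (g : ℤ) - 2 + 2 * (finrank (RatFunc K) F : ℤ)) := by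
  classical
  haveI := isDedekindDomain_integralClosure K[X] (RatFunc K) F
  haveI := isDedekindDomain_integralClosure (PolyInv K) (RatFunc K) F
  obtain ⟨u⟩ := exists_integral_basis K[X] (RatFunc K) F
  obtain ⟨u'⟩ := exists_integral_basis (PolyInv K) (RatFunc K) F
  set n := finrank (RatFunc K) F with hn
  have hd1 : Algebra.discr K[X] u ≠ 0 := discr_ne_zero (RatFunc K) u
  have hd2 : Algebra.discr (PolyInv K) u' ≠ 0 := discr_ne_zero (RatFunc K) u'
  -- local data
  have hloc : ∀ c : K, _ := fun c =>
    hLD K K[X] (RatFunc K) F (integralClosure K[X] F) (Polynomial.X - Polynomial.C c)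
      (Polynomial.prime_X_sub_C c) (bijective_mk_X_sub_C c) n u
  have hinf := hLD K (PolyInv K) (RatFunc K) F (integralClosure (PolyInv K) F) PolyInv.t
      PolyInv.prime_t PolyInv.bijective_mk_t n u'
  -- the branch set
  set C : Finset K := (Algebra.discr K[X] u).roots.toFinset with hC
  have hCmem : ∀ (c : K) (P : HeightOneSpectrum (integralClosure K[X] F)),
      1 < expAt (Polynomial.X - Polynomial.C c : K[X]) P → c ∈ C := by
    intro c P hP
    obtain ⟨hfin, -, hle, -⟩ := hloc c
    have hsupp : (Function.support fun P : HeightOneSpectrum (integralClosure K[X] F) =>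
        expAt (Polynomial.X - Polynomial.C c : K[X]) P - 1).Finite := by
      refine hfin.subset fun Q hQ => ?_
      simp only [Function.mem_support, ne_eq] at hQ
      simp only [Set.mem_ofPred_eq]
      omega
    have h1 := single_le_finsum_nat _ hsupp P
    have h2 : 1 ≤ multiplicity (Polynomial.X - Polynomial.C c) (Algebra.discr K[X] u) := by
      omega
    rw [multiplicity_X_sub_C_eq hd1] at h2
    rw [hC, Multiset.mem_toFinset, Polynomial.mem_roots hd1]
    exact (Polynomial.rootMultiplicity_pos hd1).mp (by omega)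
  obtain ⟨hfinite, hsum, htame⟩ := hFS K F C (fun c => (hloc c).1) hinf.1 hCmem
  have hnum := hurwitz_number hDI hLC g h u u'
  have hdeg : ((Algebra.discr K[X] u).natDegree : ℤ) =
      ∑ c ∈ C, ((multiplicity (Polynomial.X - Polynomial.C c) (Algebra.discr K[X] u) : ℕ) : ℤ) := by
    rw [← sum_rootMultiplicity_eq_natDegree]
    push_cast
    refine Finset.sum_congr rfl fun c _ => ?_
    rw [multiplicity_X_sub_C_eq hd1]
  have htr : (((PolyInv.of K).symm (Algebra.discr (PolyInv K) u')).natTrailingDegree : ℤ) =
      ((multiplicity (PolyInv.t : PolyInv K) (Algebra.discr (PolyInv K) u') : ℕ) : ℤ) := by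
    rw [multiplicity_polyInv_t hd2]
  rw [hdeg, htr] at hnum
  refine ⟨hfinite, ?_, ?_⟩
  · rw [hsum, hnum]
    refine add_le_add (Finset.sum_le_sum fun c _ => ?_) ?_
    · exact_mod_cast (hloc c).2.2.1
    · exact_mod_cast hinf.2.2.1
  · intro ht
    obtain ⟨ht1, ht2⟩ := htame ht
    rw [hsum, hnum]
    congr 1
    · refine Finset.sum_congr rfl fun c _ => ?_
      exact_mod_cast (hloc c).2.2.2 (fun P hP => ht1 c P hP)
    · exact_mod_cast hinf.2.2.2 ht2

end core

open Fermat.Agent.H27.ESD in
/-- **ES-D-A4**: the Hurwitz statement from the five blocks. -/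
theorem hurwitz_of (hLC : LatticeCountStatement) (hLD : LocalDiscrStatement)
    (hFR : FrameStatement) (hDI : DictStrongStatement) (hFS : FibreSumStatement) :
    HurwitzStatement := by
  intro K F _ _ _ _ y hy hfin hsep g h
  letI := polyAlgebra (K := K) y
  letI := ratFuncAlgebra y hy
  haveI := isScalarTower_poly_ratFunc y hy
  haveI := isScalarTower_const_poly (K := K) y
  haveI := isScalarTower_const_ratFunc y hy
  letI : Algebra (PolyInv K) F :=
    ((algebraMap (RatFunc K) F).comp (algebraMap (PolyInv K) (RatFunc K))).toAlgebra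
  haveI : IsScalarTower (PolyInv K) (RatFunc K) F :=
    IsScalarTower.of_algebraMap_eq fun _ => rfl
  haveI : IsScalarTower K (PolyInv K) F := IsScalarTower.of_algebraMap_eq fun c => by
    rw [IsScalarTower.algebraMap_apply (PolyInv K) (RatFunc K) F,
      ← IsScalarTower.algebraMap_apply K (PolyInv K) (RatFunc K),
      ← IsScalarTower.algebraMap_apply K (RatFunc K) F]
  obtain ⟨hfd, hsp, hrank⟩ := hFR K F y hy hfin hsep
  haveI := hfd
  haveI := hsp
  have hy' : yOf K F = y := ratFuncHom_X y hy
  have key := hurwitz_core (K := K) (F := F) hLC hLD hDI hFS g h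
  rw [hy', hrank] at key
  exact key

end

end Fermat.Agent.H56.RH
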