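import Fermat.Agent.H56.RH.Assembly
import Fermat.Agent.H19.RH.FrameDict
import Fermat.Agent.H90.LatticeCount

/-!
# ES-D-A4: the Hurwitz statement (wiring of the landed blocks)
-/

set_option autoImplicit false

namespace Fermat.Agent.H56.RH

theorem dictStrong : DictStrongStatement := by
  intro K F A B _ _ _ _ _ _ _ _ _ _ _ _ _ _ _ y hA
  exact Fermat.Agent.H19.rhDict' y hA

/-- ES-D-A4 from the two blocks which are still open. -/
theorem hurwitz_of_open (hLD : LocalDiscrStatement) (hFS : FibreSumStatement) :
    Fermat.Agent.H27.ESD.HurwitzStatement :=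
  hurwitz_of Fermat.Agent.H90.latticeCount hLD Fermat.Agent.H19.rhFrame dictStrong hFS

end Fermat.Agent.H56.RH
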